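/-
S48 (Deligne-Serre), piece (P4) Rankin, part 1: Parseval on horizontal lines.  helper8.

For a cusp form `f` of weight `k` for an arithmetic subgroup `Γ` with `1 ∈ Γ.strictPeriods`
(e.g. `Γ₁(N)`) and `a n = (qExpansion 1 f).coeff n`:
* `rk_sum_sq_exp_le`  : `∑_{n ∈ s} ‖a n‖² e^{-4πnt} ≤ C² / t^k`   (`t > 0`, `C` Hecke's constant);
* `rk_sum_sq_le`      : `∑_{n ≤ M} ‖a n‖² ≤ C' M^k`              (`M ≥ 1`).
-/
import Mathlib
import Fermat.Prelude.Def_FLTPrelim_Modularity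

set_option autoImplicit false

namespace Fermat.Agent.S48

open UpperHalfPlane ModularFormClass Complex MeasureTheory Real

local notation "𝕢" => Function.Periodic.qParam

/-- Parseval on `[0, 1]`, as an inequality for finite sets of frequencies. -/
theorem rk_bessel (g : ℝ → ℂ) (hg : Continuous g) (B : ℝ) (hB : ∀ x, ‖g x‖ ≤ B)
    (s : Finset ℤ) :
    ∑ n ∈ s, ‖fourierCoeffOn (zero_lt_one' ℝ) g n‖ ^ 2 ≤ B ^ 2 := by
  have hB0 : 0 ≤ B := (norm_nonneg _).trans (hB 0)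
  have hL2 : MemLp g 2 (volume.restrict (Set.Ioc (0 : ℝ) 1)) :=
    MemLp.of_bound hg.aestronglyMeasurable B (Filter.Eventually.of_forall hB)
  have h := hasSum_sq_fourierCoeffOn (zero_lt_one' ℝ) hL2
  refine (sum_le_hasSum s (fun _ _ => by positivity) h).trans ?_
  rw [sub_zero, inv_one, one_smul]
  have h1 : ∫ x in (0 : ℝ)..1, ‖g x‖ ^ 2 ≤ ∫ _x in (0 : ℝ)..1, B ^ 2 := by
    refine intervalIntegral.integral_mono_on zero_le_one ?_ ?_ ?_
    · exact (hg.norm.pow 2).intervalIntegrable _ _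
    · exact continuous_const.intervalIntegrable _ _
    · intro x _
      exact pow_le_pow_left₀ (norm_nonneg _) (hB x) 2
  simpa using h1

section Forms

variable {Γ : Subgroup (GL (Fin 2) ℝ)} {k : ℤ} {F : Type*} [FunLike F ℍ ℂ]

/-- The `q`-expansion coefficients are the Fourier coefficients on horizontal lines. -/
theorem rk_coeff_eq_fourierCoeffOn [ModularFormClass F Γ k] (f : F)
    (hΓ : (1 : ℝ) ∈ Γ.strictPeriods) (n : ℕ) {t : ℝ} (ht : 0 < t) :
    (qExpansion 1 f).coeff n =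
      Real.exp (2 * π * n * t) *
        fourierCoeffOn (zero_lt_one' ℝ)
          (fun u : ℝ => f ⟨(u : ℂ) + t * Complex.I, by simpa using ht⟩) (n : ℤ) := by
  rw [ModularFormClass.qExpansion_coeff_eq_intervalIntegral f one_pos hΓ n ht,
    fourierCoeffOn_eq_integral]
  simp only [sub_zero, one_div, inv_one, one_smul, one_mul, ofReal_one]
  rw [← intervalIntegral.integral_const_mul]
  refine intervalIntegral.integral_congr fun u _ => ?_
  simp only [smul_eq_mul]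
  rw [← mul_assoc]
  congr 1
  rw [fourier_coe_apply, Function.Periodic.qParam, ← Complex.exp_nat_mul, ← Complex.exp_neg,
    Complex.ofReal_exp, ← Complex.exp_add]
  congr 1
  have hI : Complex.I * Complex.I = -1 := Complex.I_mul_I
  push_cast
  simp only [sub_zero, div_one]
  linear_combination (-(2 * (π : ℂ) * n * t)) * hI

theorem rk_sum_sq_exp_le [Γ.IsArithmetic] [CuspFormClass F Γ k] (f : F)
    (hΓ : (1 : ℝ) ∈ Γ.strictPeriods) :
    ∃ C : ℝ, 0 ≤ C ∧ ∀ (s : Finset ℕ) (t : ℝ), 0 < t →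
      ∑ n ∈ s, ‖(qExpansion 1 f).coeff n‖ ^ 2 * Real.exp (-(4 * π * n * t)) ≤
        C / t ^ (k : ℝ) := by
  obtain ⟨C, hC⟩ := CuspFormClass.exists_bound (Γ := Γ) (k := k) f
  refine ⟨C ^ 2, sq_nonneg _, fun s t ht => ?_⟩
  set g : ℝ → ℂ := fun u : ℝ => f ⟨(u : ℂ) + t * Complex.I, by simpa using ht⟩ with hg
  have hgc : Continuous g := by
    have hf : Continuous (f : ℍ → ℂ) := (CuspFormClass.holo f).continuous
    refine hf.comp ?_
    fun_prop
  have hB : ∀ x, ‖g x‖ ≤ C / t ^ ((k : ℝ) / 2) := by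
    intro x
    have := hC ⟨(x : ℂ) + t * Complex.I, by simpa using ht⟩
    simpa using this
  have h1 := rk_bessel g hgc _ hB (s.map ⟨fun n : ℕ => (n : ℤ), Nat.cast_injective⟩)
  rw [Finset.sum_map] at h1
  have h2 : (C / t ^ ((k : ℝ) / 2)) ^ 2 = C ^ 2 / t ^ (k : ℝ) := by
    rw [div_pow, ← Real.rpow_natCast (t ^ ((k : ℝ) / 2)) 2, ← Real.rpow_mul ht.le]
    congr 2
    push_cast
    ring
  rw [h2] at h1
  refine le_trans (le_of_eq ?_) h1
  refine Finset.sum_congr rfl fun n _ => ?_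
  simp only [Function.Embedding.coeFn_mk]
  rw [rk_coeff_eq_fourierCoeffOn f hΓ n ht, norm_mul, mul_pow, Complex.norm_real,
    Real.norm_of_nonneg (Real.exp_pos _).le, ← Real.exp_nat_mul, mul_comm, ← mul_assoc,
    ← Real.exp_add]
  have : -(4 * π * n * t) + ((2 : ℕ) : ℝ) * (2 * π * n * t) = 0 := by push_cast; ring
  rw [this, Real.exp_zero, one_mul]

end Forms

section Forms2

variable {Γ : Subgroup (GL (Fin 2) ℝ)} {k : ℤ} {F : Type*} [FunLike F ℍ ℂ]

/-- **Rankin's mean square bound** (elementary form):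
`∑_{n ≤ M} ‖a n‖² ≤ C M^k` for a cusp form of weight `k`. -/
theorem rk_sum_sq_le [Γ.IsArithmetic] [CuspFormClass F Γ k] (f : F)
    (hΓ : (1 : ℝ) ∈ Γ.strictPeriods) :
    ∃ C : ℝ, 0 ≤ C ∧ ∀ M : ℕ, 1 ≤ M →
      ∑ n ∈ Finset.range (M + 1), ‖(qExpansion 1 f).coeff n‖ ^ 2 ≤ C * (M : ℝ) ^ (k : ℝ) := by
  obtain ⟨C, hC0, hC⟩ := rk_sum_sq_exp_le f hΓ
  refine ⟨Real.exp (4 * π) * C, by positivity, fun M hM => ?_⟩
  have hMpos : (0 : ℝ) < M := by exact_mod_cast hM
  have h1 := hC (Finset.range (M + 1)) (1 / M) (by positivity)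
  have h2 : C / (1 / (M : ℝ)) ^ (k : ℝ) = C * (M : ℝ) ^ (k : ℝ) := by
    rw [one_div, Real.inv_rpow hMpos.le, div_inv_eq_mul]
  rw [h2] at h1
  have h3 : ∑ n ∈ Finset.range (M + 1), ‖(qExpansion 1 f).coeff n‖ ^ 2 * Real.exp (-(4 * π)) ≤
      ∑ n ∈ Finset.range (M + 1),
        ‖(qExpansion 1 f).coeff n‖ ^ 2 * Real.exp (-(4 * π * n * (1 / M))) := by
    refine Finset.sum_le_sum fun n hn => ?_
    refine mul_le_mul_of_nonneg_left ?_ (by positivity)
    rw [Real.exp_le_exp, neg_le_neg_iff]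
    have hn' : (n : ℝ) ≤ M := by exact_mod_cast Nat.lt_succ_iff.mp (Finset.mem_range.mp hn)
    have : 4 * π * n * (1 / M) = 4 * π * (n / M) := by ring
    rw [this]
    have h4 : (n : ℝ) / M ≤ 1 := (div_le_one hMpos).2 hn'
    nlinarith [Real.pi_pos]
  rw [← Finset.sum_mul] at h3
  have h5 := h3.trans h1
  have h6 : Real.exp (4 * π) * Real.exp (-(4 * π)) = 1 := by
    rw [← Real.exp_add, add_neg_cancel, Real.exp_zero]
  calc ∑ n ∈ Finset.range (M + 1), ‖(qExpansion 1 f).coeff n‖ ^ 2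
      = Real.exp (4 * π) * ((∑ n ∈ Finset.range (M + 1), ‖(qExpansion 1 f).coeff n‖ ^ 2) *
          Real.exp (-(4 * π))) := by
        rw [mul_comm (∑ n ∈ Finset.range (M + 1), ‖(qExpansion 1 f).coeff n‖ ^ 2), ← mul_assoc,
          h6, one_mul]
    _ ≤ Real.exp (4 * π) * (C * (M : ℝ) ^ (k : ℝ)) :=
        mul_le_mul_of_nonneg_left h5 (Real.exp_pos _).le
    _ = Real.exp (4 * π) * C * (M : ℝ) ^ (k : ℝ) := by ring

end Forms2

section GammaOne

open CongruenceSubgroup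
open scoped MatrixGroups

theorem rk_one_mem_strictPeriods_Gamma1 (N : ℕ) :
    (1 : ℝ) ∈ (Subgroup.map (Matrix.SpecialLinearGroup.mapGL ℝ) (Gamma1 N)).strictPeriods := by
  have hT : ModularGroup.T ∈ Gamma1 N := by
    rw [Gamma1_mem]
    simp [ModularGroup.T]
  have h := Subgroup.strictPeriods_eq_zmultiples_one_of_T_mem hT
  rw [h]
  exact AddSubgroup.mem_zmultiples (1 : ℝ)

/-- Rankin's mean square bound for weight one cusp forms on `Γ₁(N)`. -/
theorem rk_sum_sq_le_Gamma1 (N : ℕ) [NeZero N] (f : CuspForm (Gamma1 N) 1) :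
    ∃ C : ℝ, 0 ≤ C ∧ ∀ M : ℕ, 1 ≤ M →
      ∑ n ∈ Finset.range (M + 1), ‖ModularFormClass.qCoeff f n‖ ^ 2 ≤ C * M := by
  obtain ⟨C, hC0, hC⟩ := rk_sum_sq_le (k := 1) f (rk_one_mem_strictPeriods_Gamma1 N)
  refine ⟨C, hC0, fun M hM => ?_⟩
  have := hC M hM
  simpa [ModularFormClass.qCoeff] using this

end GammaOne

end Fermat.Agent.S48
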