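/-
S48 (Deligne-Serre), piece (P4) Rankin, part 2: abstract Dirichlet series estimates.  helper8.

* `rk_abel`          : Abel summation as an inequality;
* `rk_sum_rpow_le`   : `∑_{1 ≤ n ≤ M} n^{-s} ≤ s / (s - 1)` for `s > 1`;
* `rk_dirichlet_le`  : `∑_{n ≤ M} b n ≤ C M` for all `M` implies
                        `∑_{1 ≤ n ≤ M} b n n^{-s} ≤ C s / (s - 1)`.
-/
import Mathlib

set_option autoImplicit false

namespace Fermat.Agent.S48

open Finset

/-- Abel summation, as an inequality: if the partial sums of `b` are at most `C M` and the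
weights `w` are nonnegative and decreasing, then `∑ b n w n ≤ C ∑ w n`. -/
theorem rk_abel (b w : ℕ → ℝ) (C : ℝ) (hw : ∀ n, 0 ≤ w n)
    (hanti : ∀ n, 1 ≤ n → w (n + 1) ≤ w n)
    (hB : ∀ M, 1 ≤ M → ∑ n ∈ Icc 1 M, b n ≤ C * M) (M : ℕ) :
    ∑ n ∈ Icc 1 M, b n * w n ≤ C * ∑ n ∈ Icc 1 M, w n := by
  -- stronger claim
  have key : ∀ M : ℕ, 1 ≤ M →
      w M * (C * M - ∑ n ∈ Icc 1 M, b n) ≤
        C * ∑ n ∈ Icc 1 M, w n - ∑ n ∈ Icc 1 M, b n * w n := by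
    intro M hM
    induction M, hM using Nat.le_induction with
    | base =>
      simp only [Icc_self, sum_singleton, Nat.cast_one, mul_one]
      apply le_of_eq
      ring
    | succ M hM ih =>
      rw [sum_Icc_succ_top (by omega), sum_Icc_succ_top (by omega), sum_Icc_succ_top (by omega)]
      have h1 : 0 ≤ C * M - ∑ n ∈ Icc 1 M, b n := sub_nonneg.2 (hB M hM)
      have h2 := hanti M hM
      have h3 : w (M + 1) * (C * M - ∑ n ∈ Icc 1 M, b n) ≤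
          w M * (C * M - ∑ n ∈ Icc 1 M, b n) := mul_le_mul_of_nonneg_right h2 h1
      push_cast
      nlinarith [ih, h3]
  rcases Nat.eq_zero_or_pos M with rfl | hM
  · simp
  · have h1 := key M hM
    have h2 : 0 ≤ w M * (C * M - ∑ n ∈ Icc 1 M, b n) :=
      mul_nonneg (hw M) (sub_nonneg.2 (hB M hM))
    linarith

/-- `∑_{1 ≤ n ≤ M} n^{-s} ≤ s / (s - 1)` for `s > 1`. -/
theorem rk_sum_rpow_le (s : ℝ) (hs : 1 < s) (M : ℕ) :
    ∑ n ∈ Icc 1 M, ((n : ℝ) ^ s)⁻¹ ≤ s / (s - 1) := by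
  have hs0 : 0 < s - 1 := sub_pos.2 hs
  rcases Nat.eq_zero_or_pos M with rfl | hM
  · simp only [zero_lt_one, Icc_eq_empty_of_lt, sum_empty]
    positivity
  -- `∑_{n=2}^{M} n^{-s} ≤ ∫_1^M x^{-s} dx`
  have hanti : AntitoneOn (fun x : ℝ => (x ^ s)⁻¹) (Set.Icc ((1 : ℕ) : ℝ) (((1 : ℕ) : ℝ) + ((M - 1 : ℕ) : ℝ))) := by
    intro x hx y hy hxy
    have hx0 : (0 : ℝ) < x := lt_of_lt_of_le (by norm_num) hx.1
    have hy0 : (0 : ℝ) < y := lt_of_lt_of_le (by norm_num) hy.1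
    simp only
    rw [inv_le_inv₀ (Real.rpow_pos_of_pos hy0 s) (Real.rpow_pos_of_pos hx0 s)]
    exact Real.rpow_le_rpow hx0.le hxy (by linarith)
  have h1 := AntitoneOn.sum_le_integral (x₀ := ((1 : ℕ) : ℝ)) (a := M - 1) hanti
  have hcast : (((1 : ℕ) : ℝ) + ((M - 1 : ℕ) : ℝ)) = (M : ℝ) := by
    rw [← Nat.cast_add]
    congr 1
    omega
  rw [hcast] at h1
  have h2 : ∫ x in ((1 : ℕ) : ℝ)..(M : ℝ), (x ^ s)⁻¹ = ((M : ℝ) ^ (-s + 1) - 1) / (-s + 1) := by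
    have h3 : ∀ x ∈ Set.uIcc ((1 : ℕ) : ℝ) (M : ℝ), (x ^ s)⁻¹ = x ^ (-s) := by
      intro x hx
      have hx1 : (1 : ℝ) ≤ x := by
        have hM1 : ((1 : ℕ) : ℝ) ≤ (M : ℝ) := by exact_mod_cast hM
        rw [Set.uIcc_of_le hM1] at hx
        exact_mod_cast hx.1
      rw [Real.rpow_neg (by linarith)]
    rw [intervalIntegral.integral_congr h3, integral_rpow]
    · simp
    · right
      refine ⟨by linarith, ?_⟩
      have hM1 : ((1 : ℕ) : ℝ) ≤ (M : ℝ) := by exact_mod_cast hM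
      rw [Set.uIcc_of_le hM1]
      intro h0
      have := h0.1
      norm_num at this
  rw [h2] at h1
  -- the sum from `1` to `M`
  have h4 : ∑ n ∈ Icc 1 M, ((n : ℝ) ^ s)⁻¹ =
      1 + ∑ i ∈ range (M - 1), ((((1 : ℕ) : ℝ) + ((i + 1 : ℕ) : ℝ)) ^ s)⁻¹ := by
    have h5 : Icc 1 M = insert 1 ((range (M - 1)).image (fun i => 1 + (i + 1))) := by
      ext n
      simp only [mem_Icc, mem_insert, mem_image, mem_range]
      constructor
      · rintro ⟨h1, h2⟩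
        rcases Nat.eq_or_lt_of_le h1 with h | h
        · exact Or.inl h.symm
        · exact Or.inr ⟨n - 2, by omega, by omega⟩
      · rintro (rfl | ⟨i, hi, rfl⟩)
        · exact ⟨le_rfl, hM⟩
        · omega
    rw [h5, sum_insert, sum_image]
    · simp
    · intro i _ j _ hij
      simpa using hij
    · simp only [mem_image, mem_range, not_exists, not_and]
      intro i _ h
      omega
  rw [h4]
  have h6 : ((M : ℝ) ^ (-s + 1) - 1) / (-s + 1) ≤ 1 / (s - 1) := by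
    have h7 : 0 ≤ (M : ℝ) ^ (-s + 1) := Real.rpow_nonneg (Nat.cast_nonneg M) _
    have h8 : ((M : ℝ) ^ (-s + 1) - 1) / (-s + 1) = (1 - (M : ℝ) ^ (-s + 1)) / (s - 1) := by
      have hne : s - 1 ≠ 0 := hs0.ne'
      have hne' : -s + 1 ≠ 0 := by
        intro h
        apply hne
        linarith
      field_simp
      ring
    rw [h8]
    exact div_le_div_of_nonneg_right (by linarith) hs0.le
  have h9 : s / (s - 1) = 1 + 1 / (s - 1) := by
    field_simp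
    ring
  rw [h9]
  linarith

/-- Dirichlet series bound from the mean square bound. -/
theorem rk_dirichlet_le (b : ℕ → ℝ) (C : ℝ) (hC : 0 ≤ C)
    (hB : ∀ M, 1 ≤ M → ∑ n ∈ Icc 1 M, b n ≤ C * M) (s : ℝ) (hs : 1 < s) (M : ℕ) :
    ∑ n ∈ Icc 1 M, b n * ((n : ℝ) ^ s)⁻¹ ≤ C * (s / (s - 1)) := by
  refine (rk_abel b (fun n => ((n : ℝ) ^ s)⁻¹) C (fun n => by positivity) ?_ hB M).trans ?_
  · intro n hn
    have hn0 : (0 : ℝ) < n := by exact_mod_cast hn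
    rw [inv_le_inv₀ (Real.rpow_pos_of_pos (by positivity) s) (Real.rpow_pos_of_pos hn0 s)]
    refine Real.rpow_le_rpow hn0.le ?_ (by linarith)
    push_cast
    linarith
  · exact mul_le_mul_of_nonneg_left (rk_sum_rpow_le s hs M) hC

/-! ### multiplicativity on squarefree numbers -/

theorem rk_not_dvd_prod (T : Finset ℕ) (hT : ∀ p ∈ T, p.Prime) (q : ℕ) (hq : q.Prime)
    (hqT : q ∉ T) : ¬ q ∣ ∏ p ∈ T, p := by
  intro h
  obtain ⟨p, hp, hqp⟩ := (Prime.dvd_finsetProd_iff (Nat.prime_iff.mp hq) _).1 h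
  have := (Nat.prime_dvd_prime_iff_eq hq (hT p hp)).1 hqp
  exact hqT (this ▸ hp)

/-- `a` is multiplicative on products of distinct primes of `Pr`. -/
theorem rk_prod_primes (a : ℕ → ℂ) (Pr : Set ℕ) (h1 : a 1 = 1)
    (hmul : ∀ p ∈ Pr, p.Prime → ∀ n : ℕ, ¬ p ∣ n → a (p * n) = a p * a n)
    (T : Finset ℕ) (hT : ∀ p ∈ T, p.Prime ∧ p ∈ Pr) :
    a (∏ p ∈ T, p) = ∏ p ∈ T, a p := by
  classical
  induction T using Finset.induction_on with
  | empty => simpa using h1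
  | insert q T hq ih =>
    have hT' : ∀ p ∈ T, p.Prime ∧ p ∈ Pr := fun p hp => hT p (mem_insert_of_mem hp)
    have hqP := hT q (mem_insert_self q T)
    rw [prod_insert hq, prod_insert hq,
      hmul q hqP.2 hqP.1 _ (rk_not_dvd_prod T (fun p hp => (hT' p hp).1) q hqP.1 hq), ih hT']

/-- The Euler product over finitely many primes of `Pr` is bounded by the Dirichlet series. -/
theorem rk_prod_le (a : ℕ → ℂ) (Pr : Set ℕ) (h1 : a 1 = 1)
    (hmul : ∀ p ∈ Pr, p.Prime → ∀ n : ℕ, ¬ p ∣ n → a (p * n) = a p * a n)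
    (C : ℝ) (hC : 0 ≤ C) (hB : ∀ M, 1 ≤ M → ∑ n ∈ Icc 1 M, ‖a n‖ ^ 2 ≤ C * M)
    (T : Finset ℕ) (hT : ∀ p ∈ T, p.Prime ∧ p ∈ Pr) (s : ℝ) (hs : 1 < s) :
    ∏ p ∈ T, (1 + ‖a p‖ ^ 2 * ((p : ℝ) ^ s)⁻¹) ≤ C * (s / (s - 1)) := by
  classical
  rw [prod_one_add]
  set g : ℕ → ℝ := fun n => ‖a n‖ ^ 2 * ((n : ℝ) ^ s)⁻¹ with hg
  have hg0 : ∀ n, 0 ≤ g n := fun n => by positivity
  have hU : ∀ U ∈ T.powerset, ∏ p ∈ U, (‖a p‖ ^ 2 * ((p : ℝ) ^ s)⁻¹) = g (∏ p ∈ U, p) := by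
    intro U hUT
    have hU' : ∀ p ∈ U, p.Prime ∧ p ∈ Pr := fun p hp => hT p (mem_powerset.1 hUT hp)
    simp only [hg]
    rw [rk_prod_primes a Pr h1 hmul U hU', norm_prod, prod_mul_distrib, prod_pow, prod_inv_distrib,
      Nat.cast_prod, Real.finsetProd_rpow _ _ (fun p _ => Nat.cast_nonneg p)]
  rw [sum_congr rfl hU]
  have hinj : Set.InjOn (fun U : Finset ℕ => ∏ p ∈ U, p) (T.powerset : Set (Finset ℕ)) := by
    intro U hUT U' hUT' h
    have h2 := Nat.primeFactors_prod (s := U) fun p hp => (hT p (mem_powerset.1 hUT hp)).1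
    have h3 := Nat.primeFactors_prod (s := U') fun p hp => (hT p (mem_powerset.1 hUT' hp)).1
    simp only at h
    rw [← h2, ← h3, h]
  rw [← sum_image (f := g) hinj]
  refine le_trans ?_ (rk_dirichlet_le (fun n => ‖a n‖ ^ 2) C hC hB s hs (∏ p ∈ T, p))
  refine sum_le_sum_of_subset_of_nonneg ?_ (fun n _ _ => hg0 n)
  intro n hn
  obtain ⟨U, hUT, rfl⟩ := mem_image.1 hn
  rw [mem_Icc]
  have hpos : 0 < ∏ p ∈ U, p :=
    prod_pos fun p hp => (hT p (mem_powerset.1 hUT hp)).1.pos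
  have hposT : 0 < ∏ p ∈ T, p := prod_pos fun p hp => (hT p hp).1.pos
  exact ⟨hpos, Nat.le_of_dvd hposT (prod_dvd_prod_of_subset _ _ _ (mem_powerset.1 hUT))⟩

end Fermat.Agent.S48
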