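/-
S48 (Deligne–Serre), piece P4 (a) (helper46): the mean square bound for the `q`-coefficients of a
cusp form of weight `k` on `Γ₁(N)`:   `∑_{n ≤ X} ‖a_n‖² ≤ C · X ^ k`   (Hecke; Parseval on the
horizontal line `Im τ = 1 / X` + `‖f τ‖ ≤ C / (Im τ) ^ (k/2)`).   Mathlib only.
-/
import Mathlib
import Fermat.Prelude.Def_FLTPrelim_Modularity

set_option autoImplicit false

namespace Fermat.Agent.S48.Rankin

open UpperHalfPlane ModularFormClass MeasureTheory CongruenceSubgroup Real Function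

noncomputable section

/-- The point `u + t i` of the upper half plane. -/
def linePt (t : ℝ) (ht : 0 < t) (u : ℝ) : ℍ := ⟨u + t * Complex.I, by simpa using ht⟩

lemma linePt_im (t : ℝ) (ht : 0 < t) (u : ℝ) : (linePt t ht u).im = t := by
  simp [linePt, UpperHalfPlane.im]

lemma linePt_coe (t : ℝ) (ht : 0 < t) (u : ℝ) : ((linePt t ht u : ℍ) : ℂ) = u + t * Complex.I := rfl

lemma continuous_linePt (t : ℝ) (ht : 0 < t) : Continuous (linePt t ht) := by
  refine (UpperHalfPlane.isEmbedding_coe.continuous_iff).2 ?_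
  show Continuous fun u : ℝ => ((u : ℂ) + t * Complex.I)
  fun_prop

variable {N : ℕ} {k : ℤ}

/-- The `q`-coefficients as Fourier coefficients on a horizontal line. -/
lemma qCoeff_eq_fourierCoeffOn (f : CuspForm (Gamma1 N) k) (n : ℕ) (t : ℝ) (ht : 0 < t) :
    qCoeff f n = Complex.exp (2 * π * n * t) *
      fourierCoeffOn (zero_lt_one' ℝ) (fun u => f (linePt t ht u)) n := by
  have h1 : (1 : ℝ) ∈ ((Gamma1 N : Subgroup (GL (Fin 2) ℝ))).strictPeriods := by
    rw [strictPeriods_Gamma1]; exact AddSubgroup.mem_zmultiples 1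
  have h2 := ModularFormClass.qExpansion_coeff_eq_intervalIntegral (f := f) (zero_lt_one' ℝ) h1 n ht
  rw [qCoeff, h2, fourierCoeffOn_eq_integral]
  simp only [one_div, inv_one, sub_zero, one_smul, Complex.ofReal_one, one_mul]
  rw [← intervalIntegral.integral_const_mul]
  apply intervalIntegral.integral_congr
  intro u _
  simp only [fourier_coe_apply, linePt, smul_eq_mul]
  rw [← mul_assoc]
  congr 1
  rw [Periodic.qParam, ← Complex.exp_nat_mul, ← Complex.exp_neg, ← Complex.exp_add]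
  congr 1
  push_cast
  have hI : Complex.I * Complex.I = -1 := Complex.I_mul_I
  ring_nf
  rw [Complex.I_sq]
  ring

/-- **Mean square bound** (Hecke): `∑_{n ≤ X} ‖a_n‖² ≤ C · X ^ k` for a cusp form of weight `k`
on `Γ₁(N)`. -/
theorem meanSquare_le [NeZero N] (f : CuspForm (Gamma1 N) k) :
    ∃ C : ℝ, 0 ≤ C ∧ ∀ X : ℕ, 1 ≤ X →
      ∑ n ∈ Finset.range (X + 1), ‖qCoeff f n‖ ^ 2 ≤ C * (X : ℝ) ^ k := by
  obtain ⟨C, hC⟩ := CuspFormClass.exists_bound f
  refine ⟨Real.exp (4 * π) * C ^ 2, by positivity, fun X hX => ?_⟩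
  have hXpos : (0 : ℝ) < X := by exact_mod_cast hX
  set t : ℝ := 1 / X with ht_def
  have ht : 0 < t := by positivity
  set g : ℝ → ℂ := fun u => f (linePt t ht u) with hg
  have hfc : Continuous (f : ℍ → ℂ) := (ModularFormClass.holo f).continuous
  have hgc : Continuous g := hfc.comp (continuous_linePt t ht)
  have hgb : ∀ u, ‖g u‖ ^ 2 ≤ C ^ 2 * (X : ℝ) ^ k := by
    intro u
    have h1 := hC (linePt t ht u)
    rw [linePt_im] at h1
    have h2 : ‖g u‖ ^ 2 ≤ (C / t ^ (k / 2 : ℝ)) ^ 2 := pow_le_pow_left₀ (norm_nonneg _) h1 2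
    have h3 : (t ^ (k / 2 : ℝ)) ^ 2 = t ^ k := by
      rw [← Real.rpow_natCast, ← Real.rpow_mul ht.le, ← Real.rpow_intCast]
      congr 1; push_cast; ring
    have h4 : t ^ k = ((X : ℝ) ^ k)⁻¹ := by
      rw [ht_def, one_div, inv_zpow]
    rw [div_pow, h3, h4, div_inv_eq_mul] at h2
    exact h2
  have hL2 : MemLp g 2 (volume.restrict (Set.Ioc 0 1)) := by
    refine MemLp.of_bound hgc.aestronglyMeasurable (C / t ^ (k / 2 : ℝ)) ?_
    refine Filter.Eventually.of_forall fun u => ?_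
    have h1 := hC (linePt t ht u)
    rwa [linePt_im] at h1
  have hP := hasSum_sq_fourierCoeffOn (zero_lt_one' ℝ) hL2
  have h1 : ∑ n ∈ Finset.range (X + 1), ‖fourierCoeffOn (zero_lt_one' ℝ) g (n : ℤ)‖ ^ 2
      ≤ ∫ x in (0 : ℝ)..1, ‖g x‖ ^ 2 := by
    have := sum_le_hasSum ((Finset.range (X + 1)).map ⟨Nat.cast, Nat.cast_injective⟩)
      (fun i _ => by positivity) hP
    simpa [Finset.sum_map] using this
  have h2 : ∫ x in (0 : ℝ)..1, ‖g x‖ ^ 2 ≤ C ^ 2 * (X : ℝ) ^ k := by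
    calc ∫ x in (0 : ℝ)..1, ‖g x‖ ^ 2 ≤ ∫ _x in (0 : ℝ)..1, C ^ 2 * (X : ℝ) ^ k :=
          intervalIntegral.integral_mono_on (by norm_num)
            ((hgc.norm.pow 2).intervalIntegrable _ _) intervalIntegrable_const
            (fun u _ => hgb u)
      _ = C ^ 2 * (X : ℝ) ^ k := by simp
  have h3 : ∀ n ∈ Finset.range (X + 1), ‖qCoeff f n‖ ^ 2 ≤
      Real.exp (4 * π) * ‖fourierCoeffOn (zero_lt_one' ℝ) g (n : ℤ)‖ ^ 2 := by
    intro n hn
    have hnX : (n : ℝ) ≤ X := by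
      exact_mod_cast Nat.lt_succ_iff.1 (Finset.mem_range.1 hn)
    rw [qCoeff_eq_fourierCoeffOn f n t ht, norm_mul, mul_pow]
    refine mul_le_mul_of_nonneg_right ?_ (by positivity)
    have h5 : ‖Complex.exp (2 * π * n * t)‖ = Real.exp (2 * π * n * t) := by
      rw [Complex.norm_exp]; congr 1
      have : (2 * (π : ℂ) * n * t) = ((2 * π * n * t : ℝ) : ℂ) := by push_cast; ring
      rw [this, Complex.ofReal_re]
    rw [h5, ← Real.exp_nat_mul]
    apply Real.exp_le_exp.2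
    have h6 : (n : ℝ) * t ≤ 1 := by
      rw [ht_def, mul_one_div]; exact (div_le_one hXpos).2 hnX
    push_cast
    nlinarith [Real.pi_pos]
  calc ∑ n ∈ Finset.range (X + 1), ‖qCoeff f n‖ ^ 2
      ≤ ∑ n ∈ Finset.range (X + 1),
          Real.exp (4 * π) * ‖fourierCoeffOn (zero_lt_one' ℝ) g (n : ℤ)‖ ^ 2 :=
        Finset.sum_le_sum h3
    _ = Real.exp (4 * π) *
          ∑ n ∈ Finset.range (X + 1), ‖fourierCoeffOn (zero_lt_one' ℝ) g (n : ℤ)‖ ^ 2 := by
        rw [Finset.mul_sum]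
    _ ≤ Real.exp (4 * π) * (C ^ 2 * (X : ℝ) ^ k) :=
        mul_le_mul_of_nonneg_left (h1.trans h2) (by positivity)
    _ = Real.exp (4 * π) * C ^ 2 * (X : ℝ) ^ k := by ring

end

end Fermat.Agent.S48.Rankin
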