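/-
S48 (Deligne–Serre), piece P4 (b) (helper46): Rankin's bound for the prime coefficients.
For a sequence `a : ℕ → ℂ` with `a 1 = 1`, `a (p n) = a p · a n` for primes `p ∤ N`, `p ∤ n`, and
mean square bound `∑_{n ≤ X} ‖a n‖² ≤ C X`:
  `∏_{p ∈ P} (1 + ‖a p‖² p^{-s}) ≤ C' / (s - 1)`                         (`prod_one_add_le`)
  `∑_{p ∈ P} ‖a p‖² p^{-s} ≤ B log (1 / (s - 1)) + C''`                   (`primeSum_le`)
  `∑_{p ∈ P} ‖a p‖² p^{-s} ≤ log (1 / (s - 1)) + C''` if `‖a p‖ ≤ A`     (`primeSum_le_sharp`)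
for `1 < s ≤ 2` and every finite set `P` of primes not dividing `N`.  Mathlib only.
-/
import Fermat.Agent.S48.Rankin.MeanSquare

set_option autoImplicit false

namespace Fermat.Agent.S48.Rankin

open Finset

/-- Abel summation as an inequality: if the partial sums of `b` are at most `C X` and `c` is
nonnegative and antitone, then `∑ b c ≤ C ∑ c`. -/
lemma abel_sum_le (b c : ℕ → ℝ) (C : ℝ) (hc : ∀ n, 0 ≤ c n) (hanti : ∀ n, c (n + 1) ≤ c n)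
    (hS : ∀ X : ℕ, ∑ n ∈ range X, b n ≤ C * X) (X : ℕ) :
    ∑ n ∈ range X, b n * c n ≤ C * ∑ n ∈ range X, c n := by
  have key : ∀ X : ℕ, ∑ n ∈ range X, b n * c n + (C * X - ∑ n ∈ range X, b n) * c X
      ≤ C * ∑ n ∈ range X, c n := by
    intro X
    induction X with
    | zero => simp
    | succ X ih =>
      rw [sum_range_succ, sum_range_succ, sum_range_succ]
      have h1 := hS (X + 1)
      rw [sum_range_succ] at h1
      have h2 : (C * ((X + 1 : ℕ) : ℝ) - (∑ n ∈ range X, b n + b X)) * c (X + 1) ≤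
          (C * ((X + 1 : ℕ) : ℝ) - (∑ n ∈ range X, b n + b X)) * c X :=
        mul_le_mul_of_nonneg_left (hanti X) (by linarith)
      push_cast at h1 h2 ⊢
      linarith
  have h3 : 0 ≤ (C * X - ∑ n ∈ range X, b n) * c X :=
    mul_nonneg (by linarith [hS X]) (hc X)
  linarith [key X]

/-- Partial sums of `ζ(s)`: `∑_{n=1}^{X} n^{-s} ≤ s / (s - 1)`. -/
lemma zeta_partial_le (s : ℝ) (hs : 1 < s) (X : ℕ) :
    ∑ n ∈ range X, ((n : ℝ) + 1) ^ (-s) ≤ s / (s - 1) := by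
  have hs1 : 0 < s - 1 := by linarith
  rcases Nat.eq_zero_or_pos X with rfl | hX
  · simp only [range_zero, sum_empty]
    exact div_nonneg (by linarith) hs1.le
  obtain ⟨a, rfl⟩ : ∃ a, X = a + 1 := ⟨X - 1, by omega⟩
  rw [sum_range_succ']
  have hanti : AntitoneOn (fun x : ℝ => x ^ (-s)) (Set.Icc (1 : ℝ) (1 + a)) := by
    intro x hx y _ hxy
    exact Real.rpow_le_rpow_of_nonpos (by linarith [hx.1]) hxy (by linarith)
  have h1 := hanti.sum_le_integral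
  have h2 : ∫ x in (1 : ℝ)..(1 + a), x ^ (-s) = ((1 + (a : ℝ)) ^ (-s + 1) - 1 ^ (-s + 1)) / (-s + 1) := by
    apply integral_rpow
    right
    refine ⟨by linarith, ?_⟩
    rw [Set.uIcc_of_le (by linarith [Nat.cast_nonneg (α := ℝ) a])]
    intro h0
    linarith [h0.1]
  have h3 : ((1 + (a : ℝ)) ^ (-s + 1) - 1 ^ (-s + 1)) / (-s + 1) ≤ 1 / (s - 1) := by
    rw [Real.one_rpow, show (-s + 1) = -(s - 1) by ring, div_neg, ← neg_div, neg_sub]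
    apply div_le_div_of_nonneg_right _ hs1.le
    have : 0 ≤ (1 + (a : ℝ)) ^ (-(s - 1)) := Real.rpow_nonneg (by positivity) _
    linarith
  have h4 : ∑ i ∈ range a, ((((i + 1 : ℕ) : ℝ)) + 1) ^ (-s) ≤ 1 / (s - 1) := by
    refine le_trans (le_of_eq ?_) (h1.trans (h2.le.trans h3))
    apply sum_congr rfl
    intro i _
    show _ = ((1 : ℝ) + ((i + 1 : ℕ) : ℝ)) ^ (-s)
    rw [add_comm]
  have h5 : (((0 : ℕ) : ℝ) + 1) ^ (-s) = 1 := by simp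
  rw [h5]
  have : s / (s - 1) = 1 / (s - 1) + 1 := by field_simp; ring
  linarith

/-- Multiplicativity on squarefree products of good primes. -/
lemma coeff_prod (a : ℕ → ℂ) (N : ℕ) (ha1 : a 1 = 1)
    (hmul : ∀ p : ℕ, p.Prime → ¬ p ∣ N → ∀ n : ℕ, ¬ p ∣ n → a (p * n) = a p * a n)
    (T : Finset ℕ) (hT : ∀ p ∈ T, p.Prime ∧ ¬ p ∣ N) :
    a (∏ p ∈ T, p) = ∏ p ∈ T, a p := by
  induction T using Finset.induction_on with
  | empty => simpa using ha1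
  | insert p T hp ih =>
    rw [prod_insert hp, prod_insert hp]
    have hpT := hT p (mem_insert_self p T)
    have hnd : ¬ p ∣ ∏ q ∈ T, q := by
      intro h
      obtain ⟨q, hq, hpq⟩ := (Prime.dvd_finsetProd_iff hpT.1.prime _).1 h
      have hqp := (hT q (mem_insert_of_mem hq)).1
      have : p = q := (Nat.prime_dvd_prime_iff_eq hpT.1 hqp).1 hpq
      exact hp (this ▸ hq)
    rw [hmul p hpT.1 hpT.2 _ hnd, ih (fun q hq => hT q (mem_insert_of_mem hq))]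

/-- The Dirichlet series `∑ ‖a n‖² n^{-s}` is `≤ C s / (s - 1)` (partial sums). -/
lemma dirichlet_sq_le (a : ℕ → ℂ) (C : ℝ)
    (hMS : ∀ X : ℕ, 1 ≤ X → ∑ n ∈ range (X + 1), ‖a n‖ ^ 2 ≤ C * X)
    (s : ℝ) (hs : 1 < s) (X : ℕ) :
    ∑ m ∈ range X, ‖a (m + 1)‖ ^ 2 * ((m : ℝ) + 1) ^ (-s) ≤ C * (s / (s - 1)) := by
  have hC : 0 ≤ C := by
    have := hMS 1 le_rfl
    have h0 : 0 ≤ ∑ n ∈ range (1 + 1), ‖a n‖ ^ 2 := sum_nonneg fun _ _ => by positivity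
    simpa using h0.trans this
  have hS : ∀ X : ℕ, ∑ n ∈ range X, ‖a (n + 1)‖ ^ 2 ≤ C * X := by
    intro X
    rcases Nat.eq_zero_or_pos X with rfl | hX
    · simp
    · have h1 := hMS X hX
      rw [sum_range_succ'] at h1
      have h2 : 0 ≤ ‖a 0‖ ^ 2 := by positivity
      linarith
  have h1 := abel_sum_le (fun n => ‖a (n + 1)‖ ^ 2) (fun n => ((n : ℝ) + 1) ^ (-s)) C
    (fun n => Real.rpow_nonneg (by positivity) _)
    (fun n => by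
      push_cast
      exact Real.rpow_le_rpow_of_nonpos (by positivity) (by linarith) (by linarith)) hS X
  exact h1.trans (mul_le_mul_of_nonneg_left (zeta_partial_le s hs X) hC)

/-- **Euler product bound**: `∏_{p ∈ P} (1 + ‖a p‖² p^{-s}) ≤ C s / (s - 1)`. -/
theorem prod_one_add_le (a : ℕ → ℂ) (N : ℕ) (C : ℝ) (ha1 : a 1 = 1)
    (hmul : ∀ p : ℕ, p.Prime → ¬ p ∣ N → ∀ n : ℕ, ¬ p ∣ n → a (p * n) = a p * a n)
    (hMS : ∀ X : ℕ, 1 ≤ X → ∑ n ∈ range (X + 1), ‖a n‖ ^ 2 ≤ C * X)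
    (s : ℝ) (hs : 1 < s) (P : Finset ℕ) (hP : ∀ p ∈ P, p.Prime ∧ ¬ p ∣ N) :
    ∏ p ∈ P, (1 + ‖a p‖ ^ 2 * (p : ℝ) ^ (-s)) ≤ C * (s / (s - 1)) := by
  set g : ℕ → ℝ := fun n => ‖a n‖ ^ 2 * (n : ℝ) ^ (-s) with hg
  have hg0 : ∀ n, 0 ≤ g n := fun n => mul_nonneg (by positivity) (Real.rpow_nonneg (by positivity) _)
  have hterm : ∀ T ∈ P.powerset, ∏ p ∈ T, (‖a p‖ ^ 2 * (p : ℝ) ^ (-s)) = g (∏ p ∈ T, p) := by
    intro T hT
    have hT' : ∀ p ∈ T, p.Prime ∧ ¬ p ∣ N := fun p hp => hP p (mem_powerset.1 hT hp)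
    rw [hg]
    simp only
    rw [coeff_prod a N ha1 hmul T hT', prod_mul_distrib, norm_prod, ← prod_pow,
      Real.finsetProd_rpow _ _ (fun i _ => by positivity)]
    push_cast
    rfl
  rw [prod_one_add, sum_congr rfl hterm]
  set X₀ : ℕ := ∏ p ∈ P, p with hX₀
  have hinj : Set.InjOn (fun T : Finset ℕ => ∏ p ∈ T, p) (P.powerset : Set (Finset ℕ)) := by
    intro T hT T' hT' h
    have h1 : ∀ p ∈ T, p.Prime := fun p hp => (hP p (mem_powerset.1 hT hp)).1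
    have h2 : ∀ p ∈ T', p.Prime := fun p hp => (hP p (mem_powerset.1 hT' hp)).1
    rw [← Nat.primeFactors_prod h1, ← Nat.primeFactors_prod h2]
    exact congrArg Nat.primeFactors h
  rw [← sum_image (f := g) hinj]
  have hsub : P.powerset.image (fun T : Finset ℕ => ∏ p ∈ T, p) ⊆ (range X₀).image (· + 1) := by
    intro n hn
    obtain ⟨T, hT, rfl⟩ := mem_image.1 hn
    have hTP := mem_powerset.1 hT
    have hpos : 0 < ∏ p ∈ T, p := prod_pos fun p hp => (hP p (hTP hp)).1.pos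
    have hle : ∏ p ∈ T, p ≤ X₀ :=
      Nat.le_of_dvd (prod_pos fun p hp => (hP p hp).1.pos) (prod_dvd_prod_of_subset _ _ _ hTP)
    refine mem_image.2 ⟨(∏ p ∈ T, p) - 1, mem_range.2 (by omega), by omega⟩
  refine (sum_le_sum_of_subset_of_nonneg hsub fun n _ _ => hg0 n).trans ?_
  rw [sum_image (fun x _ y _ h => by simpa using h)]
  refine le_trans (le_of_eq ?_) (dirichlet_sq_le a C hMS s hs X₀)
  apply sum_congr rfl
  intro m _
  rw [hg]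
  push_cast
  rfl

/-- Auxiliary: the individual terms are bounded by `C`. -/
lemma term_le (a : ℕ → ℂ) (C : ℝ)
    (hMS : ∀ X : ℕ, 1 ≤ X → ∑ n ∈ range (X + 1), ‖a n‖ ^ 2 ≤ C * X)
    (s : ℝ) (hs : 1 < s) (p : ℕ) (hp : 1 ≤ p) :
    ‖a p‖ ^ 2 * (p : ℝ) ^ (-s) ≤ C := by
  have hp0 : (0 : ℝ) < p := by exact_mod_cast hp
  have h1 : ‖a p‖ ^ 2 ≤ C * p := by
    refine le_trans ?_ (hMS p hp)
    exact single_le_sum (f := fun n => ‖a n‖ ^ 2) (fun _ _ => by positivity)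
      (mem_range.2 (Nat.lt_succ_self p))
  have h2 : (p : ℝ) ^ (-s) ≤ (p : ℝ) ^ (-1 : ℝ) :=
    Real.rpow_le_rpow_of_exponent_le (by exact_mod_cast hp) (by linarith)
  have h3 : (p : ℝ) ^ (-1 : ℝ) = (p : ℝ)⁻¹ := Real.rpow_neg_one _
  calc ‖a p‖ ^ 2 * (p : ℝ) ^ (-s) ≤ (C * p) * (p : ℝ)⁻¹ := by
        rw [← h3]
        exact mul_le_mul h1 h2 (Real.rpow_nonneg hp0.le _) ((sq_nonneg _).trans h1)
    _ = C := by field_simp

/-- The bound for the logarithm of the Euler product. -/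
lemma sum_log_le (a : ℕ → ℂ) (N : ℕ) (C : ℝ) (ha1 : a 1 = 1)
    (hmul : ∀ p : ℕ, p.Prime → ¬ p ∣ N → ∀ n : ℕ, ¬ p ∣ n → a (p * n) = a p * a n)
    (hMS : ∀ X : ℕ, 1 ≤ X → ∑ n ∈ range (X + 1), ‖a n‖ ^ 2 ≤ C * X)
    (s : ℝ) (hs : 1 < s) (hs2 : s ≤ 2) (P : Finset ℕ) (hP : ∀ p ∈ P, p.Prime ∧ ¬ p ∣ N) :
    ∑ p ∈ P, Real.log (1 + ‖a p‖ ^ 2 * (p : ℝ) ^ (-s)) ≤
      Real.log (2 * C) + Real.log (1 / (s - 1)) := by
  have hs1 : 0 < s - 1 := by linarith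
  have hC1 : 1 ≤ C := by
    have := hMS 1 le_rfl
    have h0 : ‖a 1‖ ^ 2 ≤ ∑ n ∈ range (1 + 1), ‖a n‖ ^ 2 :=
      single_le_sum (f := fun n => ‖a n‖ ^ 2) (fun _ _ => by positivity) (mem_range.2 (by norm_num))
    rw [ha1] at h0
    simp only [norm_one, one_pow, Nat.cast_one, mul_one] at h0 this
    linarith
  have hy0 : ∀ p ∈ P, 0 ≤ ‖a p‖ ^ 2 * (p : ℝ) ^ (-s) := fun p _ =>
    mul_nonneg (by positivity) (Real.rpow_nonneg (by positivity) _)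
  have hpos : ∀ p ∈ P, (1 + ‖a p‖ ^ 2 * (p : ℝ) ^ (-s)) ≠ 0 := fun p hp => by
    have := hy0 p hp; linarith
  rw [← Real.log_prod hpos, ← Real.log_mul (by linarith) (by positivity)]
  apply Real.log_le_log
  · exact prod_pos fun p hp => by have := hy0 p hp; linarith
  · refine (prod_one_add_le a N C ha1 hmul hMS s hs P hP).trans ?_
    have : s / (s - 1) ≤ 2 / (s - 1) := div_le_div_of_nonneg_right hs2 hs1.le
    calc C * (s / (s - 1)) ≤ C * (2 / (s - 1)) := mul_le_mul_of_nonneg_left this (by linarith)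
      _ = 2 * C * (1 / (s - 1)) := by ring

/-- **Rankin's bound, general form**: `∑_{p ∈ P} ‖a p‖² p^{-s} ≤ B log (1/(s-1)) + D`. -/
theorem primeSum_le (a : ℕ → ℂ) (N : ℕ) (C : ℝ) (ha1 : a 1 = 1)
    (hmul : ∀ p : ℕ, p.Prime → ¬ p ∣ N → ∀ n : ℕ, ¬ p ∣ n → a (p * n) = a p * a n)
    (hMS : ∀ X : ℕ, 1 ≤ X → ∑ n ∈ range (X + 1), ‖a n‖ ^ 2 ≤ C * X) :
    ∃ B D : ℝ, 0 ≤ B ∧ ∀ s : ℝ, 1 < s → s ≤ 2 → ∀ P : Finset ℕ,
      (∀ p ∈ P, p.Prime ∧ ¬ p ∣ N) →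
      ∑ p ∈ P, ‖a p‖ ^ 2 * (p : ℝ) ^ (-s) ≤ B * Real.log (1 / (s - 1)) + D := by
  have hC1 : 1 ≤ C := by
    have := hMS 1 le_rfl
    have h0 : ‖a 1‖ ^ 2 ≤ ∑ n ∈ range (1 + 1), ‖a n‖ ^ 2 :=
      single_le_sum (f := fun n => ‖a n‖ ^ 2) (fun _ _ => by positivity) (mem_range.2 (by norm_num))
    rw [ha1] at h0
    simp only [norm_one, one_pow, Nat.cast_one, mul_one] at h0 this
    linarith
  refine ⟨1 + C, (1 + C) * Real.log (2 * C), by linarith, fun s hs hs2 P hP => ?_⟩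
  have h1 := sum_log_le a N C ha1 hmul hMS s hs hs2 P hP
  have h2 : ∀ p ∈ P, ‖a p‖ ^ 2 * (p : ℝ) ^ (-s) ≤
      (1 + C) * Real.log (1 + ‖a p‖ ^ 2 * (p : ℝ) ^ (-s)) := by
    intro p hp
    set y := ‖a p‖ ^ 2 * (p : ℝ) ^ (-s) with hy
    have hy0 : 0 ≤ y := mul_nonneg (by positivity) (Real.rpow_nonneg (by positivity) _)
    have hyC : y ≤ C := term_le a C hMS s hs p (hP p hp).1.one_le
    have h3 := Real.one_sub_inv_le_log_of_pos (show (0 : ℝ) < 1 + y by linarith)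
    have h4 : y ≤ (1 + C) * (1 - (1 + y)⁻¹) := by
      have h5 : 1 - (1 + y)⁻¹ = y / (1 + y) := by field_simp; ring
      rw [h5, mul_div_assoc', le_div_iff₀ (by linarith)]
      nlinarith
    exact h4.trans (mul_le_mul_of_nonneg_left h3 (by linarith))
  calc ∑ p ∈ P, ‖a p‖ ^ 2 * (p : ℝ) ^ (-s)
      ≤ ∑ p ∈ P, (1 + C) * Real.log (1 + ‖a p‖ ^ 2 * (p : ℝ) ^ (-s)) := sum_le_sum h2
    _ = (1 + C) * ∑ p ∈ P, Real.log (1 + ‖a p‖ ^ 2 * (p : ℝ) ^ (-s)) := by rw [mul_sum]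
    _ ≤ (1 + C) * (Real.log (2 * C) + Real.log (1 / (s - 1))) :=
        mul_le_mul_of_nonneg_left h1 (by linarith)
    _ = (1 + C) * Real.log (1 / (s - 1)) + (1 + C) * Real.log (2 * C) := by ring

/-- **Rankin's bound, sharp form** (bounded prime coefficients):
`∑_{p ∈ P} ‖a p‖² p^{-s} ≤ log (1/(s-1)) + D`. -/
theorem primeSum_le_sharp (a : ℕ → ℂ) (N : ℕ) (C A : ℝ) (ha1 : a 1 = 1)
    (hmul : ∀ p : ℕ, p.Prime → ¬ p ∣ N → ∀ n : ℕ, ¬ p ∣ n → a (p * n) = a p * a n)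
    (hMS : ∀ X : ℕ, 1 ≤ X → ∑ n ∈ range (X + 1), ‖a n‖ ^ 2 ≤ C * X)
    (hA : ∀ p : ℕ, p.Prime → ¬ p ∣ N → ‖a p‖ ≤ A) :
    ∃ D : ℝ, ∀ s : ℝ, 1 < s → s ≤ 2 → ∀ P : Finset ℕ,
      (∀ p ∈ P, p.Prime ∧ ¬ p ∣ N) →
      ∑ p ∈ P, ‖a p‖ ^ 2 * (p : ℝ) ^ (-s) ≤ Real.log (1 / (s - 1)) + D := by
  refine ⟨Real.log (2 * C) + A ^ 4, fun s hs hs2 P hP => ?_⟩
  have h1 := sum_log_le a N C ha1 hmul hMS s hs hs2 P hP
  have h2 : ∀ p ∈ P, ‖a p‖ ^ 2 * (p : ℝ) ^ (-s) ≤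
      Real.log (1 + ‖a p‖ ^ 2 * (p : ℝ) ^ (-s)) + A ^ 4 / 2 * ((p : ℝ) ^ 2)⁻¹ := by
    intro p hp
    have hp1 : (1 : ℝ) ≤ p := by exact_mod_cast (hP p hp).1.one_le
    have hp0 : (0 : ℝ) < p := by linarith
    set y := ‖a p‖ ^ 2 * (p : ℝ) ^ (-s) with hy
    have hy0 : 0 ≤ y := mul_nonneg (by positivity) (Real.rpow_nonneg (by positivity) _)
    have hyA : y ≤ A ^ 2 * (p : ℝ)⁻¹ := by
      have h3 : (p : ℝ) ^ (-s) ≤ (p : ℝ) ^ (-1 : ℝ) :=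
        Real.rpow_le_rpow_of_exponent_le hp1 (by linarith)
      rw [Real.rpow_neg_one] at h3
      have h4 : ‖a p‖ ^ 2 ≤ A ^ 2 :=
        pow_le_pow_left₀ (norm_nonneg _) (hA p (hP p hp).1 (hP p hp).2) 2
      exact mul_le_mul h4 h3 (Real.rpow_nonneg hp0.le _) (sq_nonneg _)
    have h5 := Real.le_log_one_add_of_nonneg hy0
    have h6 : y - y ^ 2 / 2 ≤ 2 * y / (y + 2) := by
      rw [le_div_iff₀ (by linarith)]
      nlinarith [pow_nonneg hy0 3]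
    have h7 : y ^ 2 ≤ A ^ 4 * ((p : ℝ) ^ 2)⁻¹ := by
      have := pow_le_pow_left₀ hy0 hyA 2
      calc y ^ 2 ≤ (A ^ 2 * (p : ℝ)⁻¹) ^ 2 := this
        _ = A ^ 4 * ((p : ℝ) ^ 2)⁻¹ := by rw [mul_pow, inv_pow]; ring
    linarith
  have h8 : ∑ p ∈ P, ((p : ℝ) ^ 2)⁻¹ ≤ 2 := by
    have hsub : P ⊆ Ioo 0 (P.sup id + 1) := by
      intro p hp
      refine mem_Ioo.2 ⟨(hP p hp).1.pos, Nat.lt_succ_of_le ?_⟩
      exact le_sup (f := id) hp
    refine (sum_le_sum_of_subset_of_nonneg hsub fun _ _ _ => by positivity).trans ?_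
    have := sum_Ioo_inv_sq_le (α := ℝ) 0 (P.sup id + 1)
    simpa using this
  have hA4 : 0 ≤ A ^ 4 := by positivity
  calc ∑ p ∈ P, ‖a p‖ ^ 2 * (p : ℝ) ^ (-s)
      ≤ ∑ p ∈ P, (Real.log (1 + ‖a p‖ ^ 2 * (p : ℝ) ^ (-s)) + A ^ 4 / 2 * ((p : ℝ) ^ 2)⁻¹) :=
        sum_le_sum h2
    _ = ∑ p ∈ P, Real.log (1 + ‖a p‖ ^ 2 * (p : ℝ) ^ (-s)) +
          A ^ 4 / 2 * ∑ p ∈ P, ((p : ℝ) ^ 2)⁻¹ := by rw [sum_add_distrib, mul_sum]
    _ ≤ (Real.log (2 * C) + Real.log (1 / (s - 1))) + A ^ 4 / 2 * 2 :=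
        add_le_add h1 (mul_le_mul_of_nonneg_left h8 (by positivity))
    _ = Real.log (1 / (s - 1)) + (Real.log (2 * C) + A ^ 4) := by ring

/-! ### The case of a weight one cusp form on `Γ₁(N)` -/

section CuspForm

open ModularFormClass CongruenceSubgroup

variable {N : ℕ}

/-- The Hecke relations of S48 imply multiplicativity at the good primes. -/
lemma hmul_of_hT (ε : DirichletCharacter ℂ N) (a : ℕ → ℂ)
    (hT : ∀ p : ℕ, p.Prime → ¬ p ∣ N → ∀ n : ℕ,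
      a (p * n) + ε (p : ZMod N) * (if p ∣ n then a (n / p) else 0) = a p * a n) :
    ∀ p : ℕ, p.Prime → ¬ p ∣ N → ∀ n : ℕ, ¬ p ∣ n → a (p * n) = a p * a n := by
  intro p hp hpN n hn
  have := hT p hp hpN n
  rwa [if_neg hn, mul_zero, add_zero] at this

/-- Mean square bound in weight one, in the shape used above. -/
lemma cuspForm_meanSquare [NeZero N] (f : CuspForm (Gamma1 N) 1) :
    ∃ C : ℝ, ∀ X : ℕ, 1 ≤ X → ∑ n ∈ range (X + 1), ‖qCoeff f n‖ ^ 2 ≤ C * X := by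
  obtain ⟨C, -, hC⟩ := meanSquare_le f
  exact ⟨C, fun X hX => by simpa using hC X hX⟩

/-- **Rankin's bound** for a weight one cusp form on `Γ₁(N)` which is multiplicative at the good
primes. -/
theorem cuspForm_primeSum_le [NeZero N] (f : CuspForm (Gamma1 N) 1) (hf₁ : qCoeff f 1 = 1)
    (hmul : ∀ p : ℕ, p.Prime → ¬ p ∣ N → ∀ n : ℕ, ¬ p ∣ n →
      qCoeff f (p * n) = qCoeff f p * qCoeff f n) :
    ∃ B D : ℝ, 0 ≤ B ∧ ∀ s : ℝ, 1 < s → s ≤ 2 → ∀ P : Finset ℕ,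
      (∀ p ∈ P, p.Prime ∧ ¬ p ∣ N) →
      ∑ p ∈ P, ‖qCoeff f p‖ ^ 2 * (p : ℝ) ^ (-s) ≤ B * Real.log (1 / (s - 1)) + D := by
  obtain ⟨C, hC⟩ := cuspForm_meanSquare f
  exact primeSum_le (fun n => qCoeff f n) N C hf₁ hmul hC

/-- **Rankin's bound, sharp form**, for a weight one cusp form with bounded prime coefficients. -/
theorem cuspForm_primeSum_le_sharp [NeZero N] (f : CuspForm (Gamma1 N) 1)
    (hf₁ : qCoeff f 1 = 1)
    (hmul : ∀ p : ℕ, p.Prime → ¬ p ∣ N → ∀ n : ℕ, ¬ p ∣ n →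
      qCoeff f (p * n) = qCoeff f p * qCoeff f n)
    (A : ℝ) (hA : ∀ p : ℕ, p.Prime → ¬ p ∣ N → ‖qCoeff f p‖ ≤ A) :
    ∃ D : ℝ, ∀ s : ℝ, 1 < s → s ≤ 2 → ∀ P : Finset ℕ,
      (∀ p ∈ P, p.Prime ∧ ¬ p ∣ N) →
      ∑ p ∈ P, ‖qCoeff f p‖ ^ 2 * (p : ℝ) ^ (-s) ≤ Real.log (1 / (s - 1)) + D := by
  obtain ⟨C, hC⟩ := cuspForm_meanSquare f
  exact primeSum_le_sharp (fun n => qCoeff f n) N C A hf₁ hmul hC hA

end CuspForm

end Fermat.Agent.S48.Rankin
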